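import Fermat.Agent.S48.M.IfEis
import Fermat.Agent.S48.M.QF.Gal

/-!
# S48 / layer M : the levels `lvG M R`, group `GG M R = ±Γ₁(M) ∩ Γ₀(M R)`   (owner helper6)

* `eisZ M b ∈ ℤ[[q]]` : `q`-expansion of the weight 4 Eisenstein series
  `VE M b = 120 ∑_{a mod M} ζ^{-ab} QE M (0,a)`, `QE M v = (6 M⁴/(2πi)⁴) ∑_{x ≡ v (M), x ≠ 0} (x₀ τ + x₁)⁻⁴`
  (see `Eis.lean`):  constant term `M⁴ - 30 b²(M-b)²`, `n`-th coefficient
  `120 M ∑_{k ∣ n} k³ ([k ≡ b] + [k ≡ -b])`.   (`M = 1`: `E₄`.)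
* `wS M b = eisZ M b · E₄² / Δ ∈ ℚ((q))`.
* `lvG M R` : group `GG M R`, field generated by the `j(q^d)`, `d ∣ M R`, and the `wS M b (q^e)`, `e ∣ R`.
* `gamD M d ∈ Γ₀(M)` with lower right entry `≡ d`;  `matTG M ℓ` : representatives of the operator
  `T' = [ℓ 0; 0 1] + ∑_j gamD(ℓ⁻¹) [1 j; 0 ℓ]`   (`= ⟨ℓ⟩⁻¹ T_ℓ`).
* `alphaG`, `betaG`, `TlG M ℓ u = Norm_α (u(q^ℓ))`, diamonds `diaG M d` (`ι (diaG d u) = (ι u) ∘ gamD d`).
-/

set_option autoImplicit false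

open UpperHalfPlane ModularForm ModularFormClass WithZero ModularCurve AlgebraicCurve CongruenceSubgroup
open ModularCurve.Period Fermat.Agent.S24 Fermat.Agent.S29 Fermat.Agent.S16.Lower
open scoped MatrixGroups Manifold

noncomputable section

namespace Fermat.Agent.S48.M

/-- the level `±Γ₁(M) ∩ Γ₀(M R)`.   Proof fields: see IfEis.lean -/
def lvG (M R : ℕ) [NeZero M] [NeZero R] : Lvl where
  Γ := GG M R
  F₀ := IntermediateField.adjoin ℚ (gensG M R)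
  n := M * R
  n_ne := mul_ne_zero (NeZero.ne M) (NeZero.ne R)
  Gamma_le := lvG_Gamma_le M R
  neg_mem := lvG_neg_mem M R
  T_mem := lvG_T_mem M R
  gens := gensG M R
  gens_finite := lvG_gens_finite M R
  adjoin_gens := rfl
  jq_mem := lvG_jq_mem M R
  gens_int := lvG_gens_int M R
  lift := lvG_lift M R
  stab := lvG_stab M R

section Hecke

variable (M : ℕ) [NeZero M]

/-- [M/GRP] -/
theorem exists_gamD (d : (ZMod M)ˣ) :
    ∃ g : SL(2, ℤ), g ∈ Gamma0 M ∧ ((g 1 1 : ℤ) : ZMod M) = d :=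
  EisGrp.exists_gamD M d

/-- an element of `Γ₀(M)` with lower right entry `≡ d` -/
def gamD (d : (ZMod M)ˣ) : SL(2, ℤ) := (exists_gamD M d).choose

theorem gamD_mem (d : (ZMod M)ˣ) : gamD M d ∈ Gamma0 M := (exists_gamD M d).choose_spec.1

theorem gamD_apply (d : (ZMod M)ˣ) : ((gamD M d 1 1 : ℤ) : ZMod M) = d :=
  (exists_gamD M d).choose_spec.2

/-- the class of `ℓ` in `(ℤ/M)ˣ` (`1` if `ℓ` is not prime to `M`) -/
def unitOf (ℓ : ℕ) : (ZMod M)ˣ :=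
  if h : Nat.Coprime ℓ M then ZMod.unitOfCoprime ℓ h else 1

/-- representatives of `T' = [ℓ 0; 0 1] + ∑_j gamD(ℓ⁻¹) [1 j; 0 ℓ]` -/
def matTG (ℓ : ℕ) : Option (Fin ℓ) → Matrix (Fin 2) (Fin 2) ℤ
  | none => matD ℓ
  | some j => ((gamD M (unitOf M ℓ)⁻¹ : SL(2, ℤ)) : Matrix (Fin 2) (Fin 2) ℤ) * matU ℓ j

/-- `c' = c ∘ (conjugation by an element of Γ₀(M) with lower right entry d)` -/
def IsDiaL (d : (ZMod M)ˣ) (c c' : Additive (lvG M 1).Γ →+ ℤ) : Prop :=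
  ∀ (g : SL(2, ℤ)), g ∈ Gamma0 M → ((g 1 1 : ℤ) : ZMod M) = d → ∀ γ γ' : (lvG M 1).Γ,
    (γ' : SL(2, ℤ)) = g * γ * g⁻¹ → c' (Additive.ofMul γ) = c (Additive.ofMul γ')

variable (ℓ : ℕ) [NeZero ℓ]

/-- [M/ALG-DEF] -/
theorem barL_le : barL (lvG M 1) ≤ barL (lvG M ℓ) := by
  refine QF.baseChange_mono (IntermediateField.adjoin.mono ℚ _ _ ?_)
  rintro z (⟨d, hd0, hd, rfl⟩ | ⟨e, he0, b, he, rfl⟩)
  · exact Or.inl ⟨d, hd0, by rw [mul_one] at hd; exact hd.mul_right ℓ, rfl⟩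
  · exact Or.inr ⟨e, he0, b, he.trans (one_dvd ℓ), rfl⟩

/-- [M/ALG-DEF] -/
theorem qExpand_mem_barL (x : LaurentSeries Kb) (hx : x ∈ barL (lvG M 1)) :
    qExpand Kb ℓ x ∈ barL (lvG M ℓ) := by
  refine QF.qExpand_mem_baseChange ℓ (F₀ := (lvG M 1).F₀) (E₀ := (lvG M ℓ).F₀) ?_ hx
  intro y hy
  have hy' : y ∈ IntermediateField.adjoin ℚ (gensG M 1) := hy
  show qExpand ℚ ℓ y ∈ IntermediateField.adjoin ℚ (gensG M ℓ)
  induction hy' using IntermediateField.adjoin_induction with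
  | mem z hz =>
    refine IntermediateField.subset_adjoin ℚ _ ?_
    rcases hz with ⟨d, hd0, hd, rfl⟩ | ⟨e, he0, b, he, rfl⟩
    · have : NeZero (ℓ * d) := ⟨mul_ne_zero (NeZero.ne ℓ) (NeZero.ne d)⟩
      refine Or.inl ⟨ℓ * d, this, ?_, qExpand_qExpand d ℓ jq⟩
      rw [mul_one] at hd
      rw [mul_comm]
      exact mul_dvd_mul_right hd ℓ
    · have : NeZero (ℓ * e) := ⟨mul_ne_zero (NeZero.ne ℓ) (NeZero.ne e)⟩
      refine Or.inr ⟨ℓ * e, this, b, ?_, qExpand_qExpand e ℓ _⟩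
      rw [Nat.dvd_one.mp he, mul_one]
  | algebraMap c =>
    have : qExpand ℚ ℓ (algebraMap ℚ (LaurentSeries ℚ) c) = algebraMap ℚ (LaurentSeries ℚ) c :=
      (qExpandₐ ℓ).commutes c
    rw [this]
    exact IntermediateField.algebraMap_mem _ c
  | add a b _ _ ha hb => rw [map_add]; exact add_mem (ha (by assumption)) (hb (by assumption))
  | inv a _ ha => rw [map_inv₀]; exact inv_mem (ha (by assumption))
  | mul a b _ _ ha hb => rw [map_mul]; exact mul_mem (ha (by assumption)) (hb (by assumption))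

/-- the inclusion -/
def alphaG : FL (lvG M 1) →ₐ[Kb] FL (lvG M ℓ) := IntermediateField.inclusion (barL_le M ℓ)

/-- `u(q) ↦ u(q^ℓ)` -/
def betaG : FL (lvG M 1) →ₐ[Kb] FL (lvG M ℓ) :=
  { toFun := fun x => ⟨qExpand Kb ℓ (x : LaurentSeries Kb), qExpand_mem_barL M ℓ x.1 x.2⟩
    map_one' := Subtype.ext (map_one (qExpand Kb ℓ))
    map_mul' := fun _ _ => Subtype.ext (map_mul (qExpand Kb ℓ) _ _)
    map_zero' := Subtype.ext (map_zero (qExpand Kb ℓ))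
    map_add' := fun _ _ => Subtype.ext (map_add (qExpand Kb ℓ) _ _)
    commutes' := fun a => Subtype.ext <| by
      show qExpand Kb ℓ (algebraMap Kb (LaurentSeries Kb) a) = algebraMap Kb (LaurentSeries Kb) a
      rw [algebraMap_laurentSeries_eq_single, qExpand_single, mul_zero] }

/-- the norm along `alphaG` -/
def normAlphaG : FL (lvG M ℓ) →* FL (lvG M 1) :=
  letI := algebraAlong (alphaG M ℓ)
  Algebra.norm (FL (lvG M 1))

/-- the multiplicative Hecke operator `u ↦ Norm_α (u(q^ℓ))` -/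
def TlG : FL (lvG M 1) →* FL (lvG M 1) :=
  (normAlphaG M ℓ).comp ((betaG M ℓ : FL (lvG M 1) →+* FL (lvG M ℓ)) : FL (lvG M 1) →* FL (lvG M ℓ))

end Hecke

end Fermat.Agent.S48.M
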