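import Fermat.Agent.S48.M.Lvl
import Fermat.Agent.S16.LDefs
import Fermat.Prelude.Def_ModularCurve_HeckeOperator

/-!
# S48 / layer M : the group `GG M R = ±Γ₁(M) ∩ Γ₀(M R)` and the generators of its function field (helper6)
(split off from G1.lean so that S48/M/Eis/* can import it; see the header of G1.lean)
-/

set_option autoImplicit false

open UpperHalfPlane ModularForm ModularFormClass WithZero ModularCurve AlgebraicCurve CongruenceSubgroup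
open ModularCurve.Period Fermat.Agent.S24 Fermat.Agent.S29 Fermat.Agent.S16.Lower
open scoped MatrixGroups Manifold

noncomputable section

namespace Fermat.Agent.S48.M

theorem ggAux_low {M R : ℕ} {g : SL(2, ℤ)} (hg : g ∈ Gamma0 (M * R)) :
    ((g 1 0 : ℤ) : ZMod M) = 0 := by
  have h1 : ((M * R : ℕ) : ℤ) ∣ g 1 0 := (ZMod.intCast_zmod_eq_zero_iff_dvd _ _).1 (Gamma0_mem.1 hg)
  exact (ZMod.intCast_zmod_eq_zero_iff_dvd _ _).2
    ((Int.natCast_dvd_natCast.2 (Dvd.intro R rfl)).trans h1)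

theorem ggAux_mul {M : ℕ} {g : SL(2, ℤ)} (hg : ((g 1 0 : ℤ) : ZMod M) = 0) (h : SL(2, ℤ)) :
    (((g * h) 1 1 : ℤ) : ZMod M) = ((g 1 1 : ℤ) : ZMod M) * ((h 1 1 : ℤ) : ZMod M) := by
  rw [Matrix.SpecialLinearGroup.coe_mul, Matrix.mul_apply, Fin.sum_univ_two]
  push_cast
  rw [hg, zero_mul, zero_add]

theorem ggAux_inv {M : ℕ} {g : SL(2, ℤ)} (hg : ((g 1 0 : ℤ) : ZMod M) = 0) :
    ((g⁻¹ 1 1 : ℤ) : ZMod M) * ((g 1 1 : ℤ) : ZMod M) = 1 := by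
  have h2 : (g 0 0 : ℤ) * g 1 1 - g 0 1 * g 1 0 = 1 := by
    have := g.det_coe
    rwa [Matrix.det_fin_two] at this
  have h3 := congrArg (Int.cast : ℤ → ZMod M) h2
  push_cast at h3
  rw [hg, mul_zero, sub_zero] at h3
  rw [Matrix.SpecialLinearGroup.SL2_inv_expl]
  simpa using h3

/-- `±Γ₁(M) ∩ Γ₀(M R)`  [M/GRP] -/
def GG (M R : ℕ) : Subgroup SL(2, ℤ) where
  carrier := {g | g ∈ Gamma0 (M * R) ∧
    (((g 1 1 : ℤ) : ZMod M) = 1 ∨ ((g 1 1 : ℤ) : ZMod M) = -1)}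
  mul_mem' := by
    rintro a b ⟨ha, ha'⟩ ⟨hb, hb'⟩
    refine ⟨(Gamma0 (M * R)).mul_mem ha hb, ?_⟩
    rw [ggAux_mul (ggAux_low ha)]
    rcases ha' with h | h <;> rcases hb' with h' | h' <;> rw [h, h'] <;> simp
  one_mem' := ⟨(Gamma0 (M * R)).one_mem, Or.inl (by simp)⟩
  inv_mem' := by
    rintro a ⟨ha, ha'⟩
    refine ⟨(Gamma0 (M * R)).inv_mem ha, ?_⟩
    have h := ggAux_inv (ggAux_low ha)
    rcases ha' with h' | h' <;> rw [h'] at h
    · left; simpa using h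
    · right
      rw [mul_neg, mul_one] at h
      rw [← h, neg_neg]

theorem mem_GG {M R : ℕ} {g : SL(2, ℤ)} : g ∈ GG M R ↔ g ∈ Gamma0 (M * R) ∧
    (((g 1 1 : ℤ) : ZMod M) = 1 ∨ ((g 1 1 : ℤ) : ZMod M) = -1) := Iff.rfl

/-- the `q`-expansion of `VE M b` -/
def eisZ (M : ℕ) (b : ZMod M) : PowerSeries ℤ :=
  PowerSeries.mk fun n =>
    if n = 0 then (M : ℤ) ^ 4 - 30 * (b.val : ℤ) ^ 2 * ((M : ℤ) - b.val) ^ 2
    else 120 * (M : ℤ) * ∑ k ∈ n.divisors, (k : ℤ) ^ 3 *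
      ((if (k : ZMod M) = b then 1 else 0) + (if (k : ZMod M) = -b then 1 else 0))

/-- `eisZ M b · E₄² / Δ` -/
def wS (M : ℕ) (b : ZMod M) : LaurentSeries ℚ :=
  HahnSeries.single (-1 : ℤ) 1 * HahnSeries.ofPowerSeries ℤ ℚ
    ((eisZ M b * eisenstein4 ^ 2 * dedekindEtaUnitInv).map (Int.castRingHom ℚ))

/-- the generators of the function field of level `(M, R)` -/
def gensG (M R : ℕ) : Set (LaurentSeries ℚ) :=
  {x | ∃ (d : ℕ) (_ : NeZero d), d ∣ M * R ∧ x = qExpand ℚ d jq} ∪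
  {x | ∃ (e : ℕ) (_ : NeZero e) (b : ZMod M), e ∣ R ∧ x = qExpand ℚ e (wS M b)}

end Fermat.Agent.S48.M
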