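import Fermat.Agent.S48.M.G1
import Fermat.Agent.S48.M.QF.Main
import Fermat.Agent.S48.M.QF.FG
import Fermat.Agent.S48.M.Alg.Inst

/-!
# S48 / layer M : CONTRACT of the sub-layer ALG (owner helper17, NormQ part helper2).
Ports of ES/AlgGal (`PDiv.gal`, `exists_level`, `gal_Tl`), ES/AlgOrd (`PDiv.Tl`), ES/AlgKL (`KL_general`),
ES/AlgES (`cong_frob`, `cong_inertia`), with the diamond operators.

`diaG M d` : the automorphism `u ↦ u ∘ gamD M d` of the function field of `±Γ₁(M)`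
(`merAct g f = f ∘ g⁻¹`, so `ι (diaG d u) = merAct (gamD M d)⁻¹ (ι u)`).
On the generators: `diaG d` fixes the `j(q^e)` and sends `wS M b` to `wS M (b * d⁻¹)` or `wS M (b * d)`
(`VE M b ∣[4] γ = VE M (b * d_γ⁻¹)`); in particular it commutes with `galL`.
Eichler–Shimura congruence:  `TlG u ≡ σ(dia(ℓ⁻¹) u) · (σ⁻¹ u)^ℓ`  because
`TlG u (q) = u(q^ℓ) ∏_j (dia(ℓ⁻¹) u)(ζ^j q^{1/ℓ})`.
-/

set_option autoImplicit false

open UpperHalfPlane ModularForm ModularFormClass WithZero ModularCurve AlgebraicCurve CongruenceSubgroup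
open ModularCurve.Period Fermat.Agent.S24 Fermat.Agent.S29 Fermat.Agent.S16.Lower
open scoped MatrixGroups Manifold

noncomputable section

namespace Fermat.Agent.S48.M

section Generic

variable {L : Lvl}

theorem PDiv.galL {m : ℕ} {u : FL L} (hu : PDiv Kb (FL L) m u) (σ : GQ) :
    PDiv Kb (FL L) m (galL L σ u) :=
  QF.PDiv.gal hu σ

theorem exists_levelL (u : FL L) : ∃ E : IntermediateField ℚ Qb, FiniteDimensional ℚ E ∧
    ∀ σ : GQ, (∀ x ∈ E, σ x = x) → galL L σ u = u :=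
  QF.exists_level u

/-- every element of the function field is a quotient of series with finitely generated coefficients -/
theorem hasFG_L (L : Lvl) : QF.HasFG L.F₀ :=
  (QF.hasFGD_of_gen L.gens L.adjoin_gens.symm L.gens_int AlgEquiv.refl (fun _ hx => hx)).hasFG

theorem congL_iff {A : ValuationSubring Kb} {f : FL L} : CongL L A f ↔ QF.Cong A L.F₀ f := Iff.rfl

theorem KLStatementL.kls {A : ValuationSubring Kb} {ℓ : ℕ} (hKL : KLStatementL L ℓ A) :
    QF.KLS L.F₀ ℓ A :=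
  fun p hp hpℓ f hf hdiv y1 y2 h1 h2 hmul hred hne =>
    hKL p hp hpℓ f hf hdiv ⟨y1, y2, h1, h2, hmul, hred, hne⟩

/-- (KL) for a general exponent prime to `ℓ`, up to a constant -/
theorem KL_generalL {A : ValuationSubring Kb} {ℓ : ℕ} (hKL : KLStatementL L ℓ A) (m : ℕ)
    (hm : ¬ ℓ ∣ m) (f : FL L) (hf : PDiv Kb (FL L) m f) (c : Kb) (hc : c ≠ 0)
    (hcf : CongL L A (algebraMap Kb (FL L) c * f)) : ∃ g : FL L, g ^ m = f :=
  QF.KL_general (hasFG_L L) hKL.kls m hm f hf c hc hcf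

/-- inertia acts trivially modulo the maximal ideal -/
theorem cong_inertiaL {A : ValuationSubring Kb} {σ : GQ} (hσ : σ ∈ A.inertiaSubgroupIn ℚ)
    (u : FL L) (hu : u ≠ 0) :
    ∃ c : Kb, c ≠ 0 ∧ CongL L A (algebraMap Kb (FL L) c * (galL L σ u * u⁻¹)) :=
  QF.cong_inertia (hasFG_L L) hσ u hu

end Generic

/-! The diamond operators `diaG` (`exists_diaG`, `iotaL_diaG`, `galL_diaG`, `PDiv.diaG`, `hasFGD_diaG`, `diaG_jL`) are in
`Alg/DiaDef.lean` (proofs: `Alg/Dia.lean`, helper17); `galL_TlG`, `PDiv.TlG`, `hdataG`, `cong_frobG` are in `Alg/Inst.lean` (statements unchanged). -/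

end Fermat.Agent.S48.M
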