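import Fermat.Agent.S48.M.G1
import Fermat.Agent.S48.M.Desc.Main

/-!
# S48 / layer M : CONTRACT of the sub-layer DESC (owner helper8).  Generic `L : Lvl`.
Port of `S29.desc_holds` (S29/Descent.lean).
-/

set_option autoImplicit false

open UpperHalfPlane ModularForm ModularFormClass WithZero ModularCurve AlgebraicCurve CongruenceSubgroup
open ModularCurve.Period Fermat.Agent.S24 Fermat.Agent.S29 Fermat.Agent.S16.Lower
open scoped MatrixGroups Manifold

noncomputable section

namespace Fermat.Agent.S48.M

theorem desc_holdsL (L : Lvl) (m : ℕ) (c : Additive L.Γ →+ ℤ) (hc : c ∈ XL L) :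
    ∃ u : FL L, IsKummerL L m c u :=
  desc_mainL L m c hc

end Fermat.Agent.S48.M
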