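import Fermat.Agent.S48.M.G1
import Fermat.Agent.S48.M.Dict.Dict
import Fermat.Agent.S48.M.Dict.Unique

/-!
# S48 / layer M : CONTRACT of the sub-layer DICT (owner helper25).  Generic `L : Lvl`.
Ports of `S29.isKummer_unique`, `isKummer_mul`, `dvd_of_isKummer_pow` (S29/Unique.lean), `pdiv_of_isKummer` (S29/Dict.lean).
PROVED (helper25): see S48/M/Dict/{HolAux,Dict,UniqueAux,Unique}.lean.
-/

set_option autoImplicit false

open UpperHalfPlane ModularForm ModularFormClass WithZero ModularCurve AlgebraicCurve CongruenceSubgroup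
open ModularCurve.Period Fermat.Agent.S24 Fermat.Agent.S29 Fermat.Agent.S16.Lower
open scoped MatrixGroups Manifold

noncomputable section

namespace Fermat.Agent.S48.M

variable (L : Lvl)

theorem isKummerL_unique (m : ℕ) (hm : m ≠ 0) (c : Additive L.Γ →+ ℤ)
    (u u' : FL L) (hu : IsKummerL L m c u) (hu' : IsKummerL L m c u') :
    ∃ r : FL L, u = u' * r ^ m :=
  dict_isKummerL_unique L m hm c u u' hu hu'

theorem isKummerL_mul (m : ℕ) (c c' : Additive L.Γ →+ ℤ)
    (u u' : FL L) (hu : IsKummerL L m c u) (hu' : IsKummerL L m c' u') :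
    IsKummerL L m (c + c') (u * u') :=
  dict_isKummerL_mul L m c c' u u' hu hu'

theorem dvd_of_isKummerL_pow (m : ℕ) (hm : m ≠ 0) (c : Additive L.Γ →+ ℤ)
    (r : FL L) (hu : IsKummerL L m c (r ^ m)) :
    ∀ γ : L.Γ, (m : ℤ) ∣ c (Additive.ofMul γ) :=
  dict_dvd_of_isKummerL_pow L m hm c r hu

theorem pdiv_of_isKummerL (m : ℕ) (c : Additive L.Γ →+ ℤ) (hc : c ∈ XL L)
    (u : FL L) (hu : IsKummerL L m c u) : PDiv Kb (FL L) m u :=
  dict_pdiv_of_isKummerL L m c hc u hu

end Fermat.Agent.S48.M
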