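import Fermat.Agent.S48.M.G0
import Fermat.Agent.ES.TwEis
import Fermat.Agent.S28.Key
import Fermat.Agent.S48.M.Eis.Defs
import Fermat.Agent.S48.M.Eis.Inst
import Fermat.Agent.S48.M.Eis.SL
import Fermat.Agent.S48.M.Eis.Grp
import Fermat.Agent.S48.M.Eis.AL
import Fermat.Agent.S48.M.Eis.QExp
import Fermat.Agent.S48.M.Eis.Sep
import Fermat.Agent.S48.M.Eis.Const
import Fermat.Agent.S48.M.Eis.Inj
import Fermat.Agent.S48.M.Eis.VE

/-!
# S48 / layer M : CONTRACT of the sub-layer EIS (owner helper20)   [definitions + statements by helper6]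

`QE M v = (6 M⁴/(2πi)⁴) ∑_{x ≡ v (M)} (x₀ τ + x₁)⁻⁴ = cQE M • ES.wEis 4 (indW M v)`  (`0⁻⁴ = 0`), so holomorphy, slash law and
boundedness at all cusps are `ES.mdifferentiable_wEis`, `ES.wEis_slash`, `ES.isBoundedAtImInfty_wEis_slash`.

`q_M`-EXPANSION (`q_M = e(τ/M)`, `zpw M t = ζ_M^t`):  `QE M v = ∑_n qeC M v n q_M^n`,
* `n ≥ 1`: `qeC M v n = ∑_{k ∣ n} k³ ([n/k ≡ v₀] ζ^{v₁ k} + [n/k ≡ -v₀] ζ^{-v₁ k})`,
* `qeC M v 0 = [v₀ = 0] cQE M ∑_{x ≡ v₁} x⁻⁴`.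
Proof: Fubini (rows `x₀`), row `x₀ > 0`: `x₁ = d₀ + M n`, Mathlib `EisensteinSeries.qExpansion_identity` (k = 3) at
`z = (x₀ τ + d₀)/M`: `cQE M ∑_n (x₀ τ + d₀ + M n)⁻⁴ = ∑_k k³ ζ^{d₀ k} q_M^{x₀ k}`; row `x₀ < 0`: `x ↦ -x`; Lambert rearrangement.

CONSTANTS `C_a = qeC M (0,a) 0`:  `∑_a ζ^{-ab} C_a = (6M⁴/(2π)⁴) · 2 ∑_{x ≥ 1} cos(2π b x/M)/x⁴ = -M⁴ B₄(b/M)/4
 = M⁴/120 - b²(M-b)²/4`  (Mathlib `hasSum_one_div_nat_pow_mul_cos`), `0 ≤ b < M`.  Fourier inversion: for `a ≠ 0`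
`C_a = -(1/(4M)) ∑_b ζ^{ab} b²(M-b)²`; `b(M-b)` is even for `M` odd and `4 ∣ M²` for `M` even, so `M⁴ C_a ∈ ℤ[ζ]`.

`VE M b = 120 ∑_a ζ^{-ab} QE M (0,a)` has `q`-expansion `eisZ M b` (orthogonality);  `(0,a) γ = (0, a d_γ)` for `γ ∈ Γ₀(M)`, so
`VE M (b d_γ) ∣[4] γ = VE M b`.

`yH M v = M⁴ QE M v E₄²/Δ` (`0` for `v = 0`), in `S28.AL n` for `M ∣ n`;  in the variable `q_n`, `t = n/M`:
`coeff (-n + t m) = M⁴ qeC M v m` for `m < M`, `coeff i = 0` for `i < -n`.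
SEPARATION: `v = (0,1) g₀`; `h = g₀⁻¹ S'` moves `v` to `(1,0)`; `S28.smul_mem_Pr`; coefficient `m = 1`:
`qeC M (1,0) 1 = 1 + [1 = -1]`, `qeC M (c,d) 1 = [c = 1] ζ^d + [c = -1] ζ^{-d}`; `M`-th roots of unity are distinct mod `φ`.
-/

set_option autoImplicit false

open UpperHalfPlane ModularForm ModularFormClass WithZero ModularCurve AlgebraicCurve CongruenceSubgroup
open Fermat.Agent.S24 Fermat.Agent.S29 Fermat.Agent.S28
open scoped MatrixGroups Manifold Real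

noncomputable section

namespace Fermat.Agent.S48.M

/-! ### analysis -/

section Analysis

variable (M : ℕ) [NeZero M]

theorem mdiff_QE (v : Fin 2 → ZMod M) : MDiff (QE M v) :=
  EisSL.mdiff_QE M v

theorem QE_slash (v : Fin 2 → ZMod M) (g : SL(2, ℤ)) : QE M v ∣[(4 : ℤ)] g = QE M (vg M v g) :=
  EisSL.QE_slash M v g

theorem QE_neg (v : Fin 2 → ZMod M) : QE M (-v) = QE M v :=
  EisSL.QE_neg M v

theorem hasSum_QE (v : Fin 2 → ZMod M) (τ : ℍ) :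
    HasSum (fun n : ℕ => qeC M v n * Complex.exp (2 * π * Complex.I * τ / M) ^ n) (QE M v τ) :=
  hasSum_QE' M v τ

theorem isIntegral_qeC (v : Fin 2 → ZMod M) (hv : v ≠ 0) (n : ℕ) :
    IsIntegral ℤ ((M : ℂ) ^ 4 * qeC M v n) :=
  isIntegral_qeC' M v hv n

theorem isQ_VE (b : ZMod M) : IsQ (VE M b) :=
  EisVE.isQ_VE M (hasSum_QE M) (sum_zpw_qeC_eq M) b

theorem qExpansion_VE (b : ZMod M) :
    qExpansion 1 (VE M b) = (eisZ M b).map (Int.castRingHom ℂ) :=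
  EisVE.qExpansion_VE M (hasSum_QE M) (sum_zpw_qeC_eq M) b

theorem VE_slash (b : ZMod M) (g : SL(2, ℤ)) (hg : g ∈ Gamma0 M) :
    VE M (b * ((g 1 1 : ℤ) : ZMod M)) ∣[(4 : ℤ)] g = VE M b :=
  EisSL.VE_slash M b g hg

theorem bdd_VE_slash (b : ZMod M) (g : SL(2, ℤ)) : IsBoundedAtImInfty (VE M b ∣[(4 : ℤ)] g) :=
  EisSL.bdd_VE_slash M b g

theorem eisZ_injective (b b' : ZMod M) (h : eisZ M b = eisZ M b') : b' = b ∨ b' = -b :=
  EisInj.eisZ_injective M b b' h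

end Analysis

/-! ### the functions `w_b(e τ)` and the fields of `lvG` -/

section Inst

variable (M R : ℕ) [NeZero M] [NeZero R]

/-- `τ ↦ (VE M b · E₄² / Δ)(e τ)` -/
def wH (b : ZMod M) (e : ℕ) [NeZero e] : Hol :=
  ⟨fun τ => VE M b (scaleH e τ) * E₄ (scaleH e τ) ^ 2 / discriminant (scaleH e τ),
    inst_mdiff (VE M b) (isQ_VE M b).holo e⟩

theorem exists_wQ (b : ZMod M) (e : ℕ) [NeZero e] : ∃ y : Qq,
    phiS y = coeffEmb Kb (qExpand ℚ e (wS M b)) ∧ phiH y = algebraMap Hol Mer (wH M b e) :=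
  inst_exists_wQ (VE M b) (eisZ M b) (isQ_VE M b) (qExpansion_VE M b) e

theorem isQuotL_wH (b : ZMod M) (e : ℕ) [NeZero e] (he : e ∣ R) :
    IsQuotL (GG M R) (algebraMap Hol Mer (wH M b e)) :=
  inst_isQuotL M R e he
    (inst_isMF_V M (VE M) (fun b => (isQ_VE M b).holo) (VE_slash M) (bdd_VE_slash M) b)

theorem isQuotL_jHd (d : ℕ) [NeZero d] (hd : d ∣ M * R) :
    IsQuotL (GG M R) (algebraMap Hol Mer (jHd d)) :=
  inst_isQuotL_jHd M R d hd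

/-- `w_{b d_g} ∘ g = w_b` for `g ∈ Γ₀(M)` -/
theorem holAct_wH (b : ZMod M) (g : SL(2, ℤ)) (hg : g ∈ Gamma0 M) :
    holAct g⁻¹ (wH M (b * ((g 1 1 : ℤ) : ZMod M)) 1) = wH M b 1 :=
  inst_holAct _ _ (isQ_VE M b).holo (isQ_VE M _).holo g (VE_slash M b g hg)

theorem lvG_Gamma_le : CongruenceSubgroup.Gamma (M * R) ≤ GG M R :=
  EisGrp.Gamma_le M R

theorem lvG_neg_mem : (-1 : SL(2, ℤ)) ∈ GG M R :=
  EisGrp.neg_mem M R

theorem lvG_T_mem : ModularGroup.T ∈ GG M R :=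
  EisGrp.T_mem M R

theorem lvG_gens_finite : (gensG M R).Finite :=
  inst_gens_finite M R

theorem lvG_jq_mem : jq ∈ gensG M R :=
  inst_jq_mem M R

theorem lvG_gens_int : ∀ x ∈ gensG M R, ∀ i : ℤ, ∃ z : ℤ, x.coeff i = z :=
  inst_gens_int M R

theorem lvG_lift : ∀ x ∈ gensG M R, ∃ y : Qq, phiS y = coeffEmb Kb x ∧ IsQuotL (GG M R) (phiH y) :=
  inst_lift M (VE M) R (isQ_VE M) (qExpansion_VE M) (VE_slash M) (bdd_VE_slash M)

theorem lvG_stab : ∀ g : SL(2, ℤ),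
    (∀ x ∈ gensG M R, ∀ y : Qq, phiS y = coeffEmb Kb x → merAct g (phiH y) = phiH y) →
      g ∈ GG M R :=
  inst_stab M (VE M) R (isQ_VE M) (qExpansion_VE M) (VE_slash M) (eisZ_injective M)

end Inst

/-! ### integral theory: the functions `y_v` -/

section Integral

variable (M n : ℕ) [NeZero M] [NeZero n] (hMn : M ∣ n)

include hMn in
theorem exists_yA (v : Fin 2 → ZMod M) : ∃ f : AL n, ∀ τ : ℍ, (f.1 : ℍ → ℂ) τ =
    if v = 0 then 0 else (M : ℂ) ^ 4 * QE M v τ * E₄ τ ^ 2 / discriminant τ :=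
  EisAL.exists_yA M (hasSum_QE M) (isIntegral_qeC M) n hMn v

/-- `y_v = M⁴ QE M v E₄²/Δ` -/
def yA (v : Fin 2 → ZMod M) : AL n := (exists_yA M n hMn v).choose

theorem yA_apply (v : Fin 2 → ZMod M) (τ : ℍ) : ((yA M n hMn v).1 : ℍ → ℂ) τ =
    if v = 0 then 0 else (M : ℂ) ^ 4 * QE M v τ * E₄ τ ^ 2 / discriminant τ :=
  (exists_yA M n hMn v).choose_spec τ

theorem smul_yA (g : SL(2, ℤ)) (v : Fin 2 → ZMod M) :
    g • yA M n hMn v = yA M n hMn (vg M v g⁻¹) :=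
  EisAL.smul_eq M n g v _ _ (yA_apply M n hMn v) (yA_apply M n hMn _)

theorem coeff_eps_yA_of_lt (v : Fin 2 → ZMod M) (i : ℤ) (hi : i < -(n : ℤ)) :
    (eps n (yA M n hMn v)).coeff i = 0 :=
  EisAL.coeff_eps_of_lt M (hasSum_QE M) (isIntegral_qeC M) n hMn v _ (yA_apply M n hMn v) i hi

theorem coeff_eps_yA (v : Fin 2 → ZMod M) (hv : v ≠ 0) (m : ℕ) (hm : m < M) :
    (((eps n (yA M n hMn v)).coeff (-(n : ℤ) + ((n / M : ℕ) : ℤ) * m) : Zb) : ℂ) =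
      (M : ℂ) ^ 4 * qeC M v m :=
  EisAL.coeff_eps M (hasSum_QE M) (isIntegral_qeC M) n hMn v hv _ (yA_apply M n hMn v) m hm

/-- separation of the conjugates modulo every prime not dividing `n` -/
theorem yA_sep {Fb : Type} [Field Fb] (φ : Zb →+* Fb)
    (hφ : ∀ r : ℕ, r.Prime → r ∣ n → φ (r : Zb) ≠ 0) (g₀ : SL(2, ℤ)) (w : Fin 2 → ZMod M)
    (h : red n φ (yA M n hMn (vg M ![0, 1] g₀)) = red n φ (yA M n hMn w)) :
    w = vg M ![0, 1] g₀ ∨ w = - vg M ![0, 1] g₀ := by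
  have hzero : yA M n hMn 0 = 0 := by
    apply Subtype.ext
    apply Subtype.ext
    funext τ
    rw [yA_apply, if_pos rfl]
    rfl
  exact EisSep.sep M n hMn (yA M n hMn) (fun g v => smul_yA M n hMn g v) hzero
    (fun v hv m hm => coeff_eps_yA M n hMn v hv m hm) φ hφ g₀ w h

end Integral

end Fermat.Agent.S48.M
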