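import Fermat.Agent.S48.M.IfAlg
import Fermat.Agent.S48.M.HX.Ops
import Fermat.Agent.S48.M.HX.K3
import Fermat.Agent.S48.M.HX.K3Dia

/-!
# S48 / layer M : CONTRACT of the sub-layer HX (owner helper26).
Hecke operators and diamonds on `XL (lvG M 1) = Hom_par(±Γ₁(M), ℤ)` by transfer (group theory only), and (K3):
compatibility with `TlG`, `diaG` on Kummer elements (port of S29/K3.lean).
`finite_XL`, `free_XL` : HX/Conj.lean;  `TX M ℓ`, `isTransferL_TX`, `DX M d`, `isDiaL_DX`, `DX_TX_comm`, `DX_mul`, `DX_one`, `TX_commute` : HX/Ops.lean.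
-/

set_option autoImplicit false

open UpperHalfPlane ModularForm ModularFormClass WithZero ModularCurve AlgebraicCurve CongruenceSubgroup
open ModularCurve.Period Fermat.Agent.S24 Fermat.Agent.S29 Fermat.Agent.S16.Lower
open scoped MatrixGroups Manifold

noncomputable section

namespace Fermat.Agent.S48.M

variable (M : ℕ) [NeZero M]

/-- (K3) for `T'_ℓ` -/
theorem isKummerL_TlG (m : ℕ) {ℓ : ℕ} [NeZero ℓ] (hℓ : ℓ.Prime) (hM : ¬ ℓ ∣ M)
    (c c' : Additive (lvG M 1).Γ →+ ℤ) (u : FL (lvG M 1)) (hc : c ∈ XL (lvG M 1))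
    (hu : IsKummerL (lvG M 1) m c u) (ht : IsTransferL (lvG M 1) (matTG M ℓ) c c') :
    IsKummerL (lvG M 1) m c' (TlG M ℓ u) :=
  isKummerL_TlG_of_finrank M hℓ hM (finrankAlong_alphaG M ℓ hℓ hM) hu ht

/-- (K3) for the diamonds -/
theorem isKummerL_diaG (m : ℕ) (d : (ZMod M)ˣ)
    (c c' : Additive (lvG M 1).Γ →+ ℤ) (u : FL (lvG M 1))
    (hu : IsKummerL (lvG M 1) m c u) (ht : IsDiaL M d c c') :
    IsKummerL (lvG M 1) m c' (diaG M d u) :=
  isKummerL_diaG' M m d c c' u hu ht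

end Fermat.Agent.S48.M
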