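import Fermat.Agent.S48.M.G1
import Fermat.Agent.S48.M.KL.Main

/-!
# S48 / layer M : CONTRACT of the sub-layer KL (owner helper27).
Port of `S18.KL` (S18/KLFinal.lean) to the level `lvG M 1` (group `±Γ₁(M)`).
-/

set_option autoImplicit false

open UpperHalfPlane ModularForm ModularFormClass WithZero ModularCurve AlgebraicCurve CongruenceSubgroup
open ModularCurve.Period Fermat.Agent.S24 Fermat.Agent.S29 Fermat.Agent.S16.Lower
open scoped MatrixGroups Manifold

noncomputable section

namespace Fermat.Agent.S48.M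

theorem KLG (M : ℕ) [NeZero M] {ℓ : ℕ} (hℓ : ℓ.Prime) (hℓM : ¬ ℓ ∣ M) (A : ValuationSubring Kb)
    (hA : A.LiesOverPrime ℓ) : KLStatementL (lvG M 1) ℓ A :=
  KLL.klG M hℓ hℓM A hA

end Fermat.Agent.S48.M
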