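import Fermat.Agent.S48.Forms
import Fermat.Agent.S48.M.HX.Ops
import Fermat.Agent.S48.M.Per.Main

/-!
# S48 / layer M : CONTRACT of the sub-layer PER (owner helper16) : the eigenvector in `k ⊗ XL (lvG M 1)`
Statement = helper16's board post #881 verbatim.  helper16: replace the `sorry` by a reference to `Per/Main.lean` (add the import HERE), or tell helper9 to import your file in `Top.lean` directly.
-/

set_option autoImplicit false

open UpperHalfPlane TensorProduct Fermat.Agent.S24 Fermat.Agent.S29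

noncomputable section

namespace Fermat.Agent.S48.M

theorem exists_eigenvector_if (M : ℕ) [NeZero M] {k : Type} [Field k]
    (φ : Zbar →+* k) (χ : ℤ → ℂ) (g : ℍ → ℂ) (hg : IsNebC M 2 χ g)
    (c : ℕ → Zbar) (hc : ∀ n, (c n : ℂ) = coeffFun g n) (h1 : φ (c 1) ≠ 0)
    (x : ℤ → Zbar) (hx : ∀ d, (x d : ℂ) = χ d) (b : ℕ → k)
    (hb : ∀ p : ℕ, p.Prime → ¬ p ∣ M → ∀ n : ℕ,
      φ (c (p * n)) + φ (x p) * (p : k) * (if p ∣ n then φ (c (n / p)) else 0) = b p * φ (c n))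
    (T : ℕ → Module.End ℤ (XL (lvG M 1)))
    (hT : ∀ p : ℕ, p.Prime → ¬ p ∣ M → ∀ u : XL (lvG M 1),
      IsTransferL (lvG M 1) (matTG M p) (u : Additive (lvG M 1).Γ →+ ℤ) (T p u))
    (Dm : (ZMod M)ˣ → Module.End ℤ (XL (lvG M 1)))
    (hD : ∀ (d : (ZMod M)ˣ) (u : XL (lvG M 1)),
      IsDiaL M d (u : Additive (lvG M 1).Γ →+ ℤ) (Dm d u)) :
    ∃ (ε : (ZMod M)ˣ →* kˣ) (y : k ⊗[ℤ] XL (lvG M 1)),
      (∀ (d : ℤ) (u : (ZMod M)ˣ), (u : ZMod M) = (d : ZMod M) → ((ε u : kˣ) : k) = φ (x d)) ∧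
      y ≠ 0 ∧
      (∀ p : ℕ, p.Prime → ¬ p ∣ M → ∀ u : (ZMod M)ˣ, (u : ZMod M) = (p : ZMod M) →
        (T p).baseChange k y = (b p * (((ε u)⁻¹ : kˣ) : k)) • y) ∧
      (∀ d : (ZMod M)ˣ, (Dm d).baseChange k y = ((ε d : kˣ) : k) • y) :=
  Per.exists_eigenvector M φ χ g hg c hc h1 x hx b hb T hT Dm hD

end Fermat.Agent.S48.M
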