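import Fermat.Agent.S29.Defs
import Fermat.Agent.S28.AL

/-!
# S48 / layer M : abstract "levels"   (owner helper6)

The whole `Γ₀(N)` machinery (S24, S29/Dict, Unique, Descent, S18 modular part, ES/Alg) is redone for an
abstract level `L : Lvl`:  a congruence subgroup `L.Γ ∋ -1, T` of `SL(2,ℤ)` together with a field
`L.F₀ ⊆ ℚ((q))` generated by finitely many series with integral coefficients, each of which is the
`q`-expansion of a quotient of two modular forms of weight `12 m` on `L.Γ`, and such that `L.Γ` is exactly the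
stabiliser of these functions.

DICTIONARY for the ports (old name ↦ new name, `N` ↦ `L`, `[NeZero N]` disappears):
`FN N ↦ FL L`, `QN N ↦ QL L`, `Gamma0 N ↦ L.Γ`, `modularFunctionFieldFull N ↦ L.F₀`,
`modularFunctionFieldBar N ↦ barL L`, `iota N ↦ iotaL L`, `jN N ↦ jL L`, `IsQuot N ↦ IsQuotL L.Γ`,
`gal N ↦ galL L`, `FC N ↦ FCL L`, `galC N ↦ galCL L`, `XN N ↦ XL L`, `HasChar N ↦ HasCharL L`,
`IsKummer N ↦ IsKummerL L`, `IsCuspQuot N ↦ IsCuspQuotL L`; every other ported declaration `foo` is called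
`fooL` (e.g. `sigma ↦ sigmaL`, `finrank_FN ↦ finrank_FL`, `merAct_iota_of_mem ↦ merAct_iotaL_of_mem`).
-/

set_option autoImplicit false

open UpperHalfPlane ModularForm ModularFormClass WithZero ModularCurve AlgebraicCurve CongruenceSubgroup
open ModularCurve.Period Fermat.Agent.S24 Fermat.Agent.S29
open scoped MatrixGroups Manifold

noncomputable section

namespace Fermat.Agent.S48.M

/-- `x` is a quotient of two modular forms of weight `12 m` on `Γ` -/
def IsQuotL (Γ : Subgroup SL(2, ℤ)) (x : Mer) : Prop :=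
  ∃ (m : ℕ) (a b : Hol), IsMFH (Γ : Subgroup (GL (Fin 2) ℝ)) (12 * m) a ∧
    IsMFH (Γ : Subgroup (GL (Fin 2) ℝ)) (12 * m) b ∧ b ≠ 0 ∧
    x * algebraMap Hol Mer b = algebraMap Hol Mer a

/-- an abstract level -/
structure Lvl where
  /-- the group -/
  Γ : Subgroup SL(2, ℤ)
  /-- the rational function field, inside `ℚ((q))` -/
  F₀ : IntermediateField ℚ (LaurentSeries ℚ)
  /-- `Γ(n) ≤ Γ` -/
  n : ℕ
  n_ne : n ≠ 0
  Gamma_le : CongruenceSubgroup.Gamma n ≤ Γ
  neg_mem : (-1 : SL(2, ℤ)) ∈ Γ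
  T_mem : ModularGroup.T ∈ Γ
  /-- generators -/
  gens : Set (LaurentSeries ℚ)
  gens_finite : gens.Finite
  adjoin_gens : IntermediateField.adjoin ℚ gens = F₀
  jq_mem : jq ∈ gens
  gens_int : ∀ x ∈ gens, ∀ i : ℤ, ∃ z : ℤ, x.coeff i = z
  lift : ∀ x ∈ gens, ∃ y : Qq, phiS y = coeffEmb Kb x ∧ IsQuotL Γ (phiH y)
  stab : ∀ g : SL(2, ℤ),
    (∀ x ∈ gens, ∀ y : Qq, phiS y = coeffEmb Kb x → merAct g (phiH y) = phiH y) → g ∈ Γ

variable (L : Lvl)

/-- the function field over `Kb = ℚ̄`, as an intermediate field of `Kb((q))` -/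
abbrev barL : IntermediateField Kb (LaurentSeries Kb) := laurentBaseChange Kb L.F₀

/-- the function field over `Kb` -/
abbrev FL : Type := ↥(laurentBaseChange Kb L.F₀)

/-- the function field over `ℂ` -/
abbrev FCL : Type := ↥(laurentBaseChange ℂ L.F₀)

/-- the coset space -/
abbrev QL : Type := SL(2, ℤ) ⧸ L.Γ

/-- the Galois action -/
abbrev galL (σ : GQ) : FL L ≃+* FL L := arithmeticRingAut L.F₀ σ

/-- the action of `Aut ℂ` -/
abbrev galCL (σ : ℂ ≃ₐ[ℚ] ℂ) : FCL L ≃+* FCL L := arithmeticRingAut L.F₀ σ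

/-- a rational element of the function field -/
def ratL (x : LaurentSeries ℚ) (hx : x ∈ L.F₀) : FL L :=
  ⟨coeffEmb Kb x, coeffEmb_mem_laurentBaseChange Kb hx⟩

theorem gens_le : L.gens ⊆ L.F₀ := by
  rw [← L.adjoin_gens]; exact IntermediateField.subset_adjoin ℚ _

/-- `j` -/
def jL : FL L := ratL L jq (gens_le L L.jq_mem)

/-- the lattice `Hom_par(Γ, ℤ)` -/
abbrev XL : Submodule ℤ (Additive L.Γ →+ ℤ) := parabolicHoms ℤ L.Γ ℤ

/-- induction principle for the function field -/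
theorem mem_of_FL (S : Subfield (LaurentSeries Kb))
    (hc : ∀ a : Kb, algebraMap Kb (LaurentSeries Kb) a ∈ S)
    (hj : ∀ x ∈ L.gens, coeffEmb Kb x ∈ S)
    (x : LaurentSeries Kb) (hx : x ∈ barL L) : x ∈ S := by
  have key : ∀ z ∈ IntermediateField.adjoin ℚ L.gens, coeffEmb Kb z ∈ S := by
    intro z hz
    induction hz using IntermediateField.adjoin_induction with
    | mem w hw => exact hj w hw
    | algebraMap c =>
      rw [eq_ratCast, map_ratCast]
      exact SubfieldClass.ratCast_mem S c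
    | add a b _ _ ha hb => rw [map_add]; exact add_mem ha hb
    | inv a _ ha => rw [map_inv₀]; exact inv_mem ha
    | mul a b _ _ ha hb => rw [map_mul]; exact mul_mem ha hb
  rw [mem_laurentBaseChange_iff] at hx
  refine (Subfield.closure_le (t := S)).mpr ?_ hx
  rintro y (⟨a, rfl⟩ | ⟨z, hz, rfl⟩)
  · exact hc a
  · exact key z (by rw [L.adjoin_gens]; exact hz)

/-- [M/FLD-IOTA] -/
theorem FL_le_range (x : LaurentSeries Kb) (hx : x ∈ barL L) : x ∈ phiS.fieldRange :=
  mem_of_FL L phiS.fieldRange (fun a => RingHom.mem_fieldRange.mpr ⟨_, phiS_cstB a⟩)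
    (fun z hz => by
      obtain ⟨y, hy, -⟩ := L.lift z hz
      exact RingHom.mem_fieldRange.mpr ⟨y, hy⟩) x hx

/-- the function field inside the fraction field of the pullback ring -/
def iotaQL : FL L →+* Qq :=
  (phiS.rangeRestrictFieldEquiv.symm : phiS.fieldRange →+* Qq).comp
    { toFun := fun x => ⟨x.1, FL_le_range L x.1 x.2⟩
      map_one' := rfl
      map_mul' := fun _ _ => rfl
      map_zero' := rfl
      map_add' := fun _ _ => rfl }

/-- the embedding of the function field into the field of meromorphic functions -/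
def iotaL : FL L →+* Mer := phiH.comp (iotaQL L)

/-- `h` transforms under `Γ` by the character `γ ↦ e(c(γ)/m)` -/
def HasCharL (m : ℕ) (c : Additive L.Γ →+ ℤ) (h : Mer) : Prop :=
  ∀ γ : L.Γ, merAct (γ : SL(2, ℤ)) h = algebraMap ℂ Mer (zet m (c (Additive.ofMul γ))) * h

/-- `u` is the Kummer element of the character `e(c/m)` -/
def IsKummerL (m : ℕ) (c : Additive L.Γ →+ ℤ) (u : FL L) : Prop :=
  ∃ h : Mer, h ≠ 0 ∧ iotaL L u = h ^ m ∧ HasCharL L m c h

/-- `u = G / Δ ^ n`, `G ≠ 0` a cusp form of weight `12 n` with algebraic coefficients -/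
def IsCuspQuotL (n : ℕ) (u : FL L) : Prop :=
  ∃ (G : CuspForm (L.Γ : Subgroup (GL (Fin 2) ℝ)) (12 * n)) (t : PowerSeries Kb),
    qExpansion 1 G = t.map kappa ∧
    (u : LaurentSeries Kb) * HahnSeries.ofPowerSeries ℤ Kb (delS Kb ^ n) =
      HahnSeries.ofPowerSeries ℤ Kb t

/-- Hecke data for `γ` with respect to the family of integer matrices `A` -/
structure HDataL {ι : Type} (A : ι → Matrix (Fin 2) (Fin 2) ℤ) (γ : L.Γ) where
  σ : Equiv.Perm ι
  δ : ι → L.Γ
  rel : ∀ i, A i * ((γ : SL(2, ℤ)) : Matrix (Fin 2) (Fin 2) ℤ) =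
    ((δ i : SL(2, ℤ)) : Matrix (Fin 2) (Fin 2) ℤ) * A (σ i)

/-- `c'` is the image of `c` under the transfer (Hecke) operator with representatives `A` -/
def IsTransferL {ι : Type} [Fintype ι] (A : ι → Matrix (Fin 2) (Fin 2) ℤ)
    (c c' : Additive L.Γ →+ ℤ) : Prop :=
  ∀ (γ : L.Γ) (D : HDataL L A γ), c' (Additive.ofMul γ) = ∑ i, c (Additive.ofMul (D.δ i))

/-- `y ∈ A((q)) ∩ F` -/
def MemFL (A : ValuationSubring Kb) (y : LaurentSeries A) : Prop := coeffMap A.subtype y ∈ barL L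

/-- `f ≡ 1` modulo the maximal ideal of `A` -/
def CongL (A : ValuationSubring Kb) (f : FL L) : Prop :=
  ∃ y1 y2 : LaurentSeries A, MemFL L A y1 ∧ MemFL L A y2 ∧
    (f : LaurentSeries Kb) * coeffMap A.subtype y2 = coeffMap A.subtype y1 ∧
    coeffMap (IsLocalRing.residue A) y1 = coeffMap (IsLocalRing.residue A) y2 ∧
    coeffMap (IsLocalRing.residue A) y2 ≠ 0

/-- the statement (KL') for the level `L` -/
def KLStatementL (ℓ : ℕ) (A : ValuationSubring Kb) : Prop :=
  ∀ p : ℕ, p.Prime → p ≠ ℓ → ∀ f : FL L, f ≠ 0 →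
    (∀ P : Place Kb (FL L), (p : ℤ) ∣ P.ord f) → CongL L A f → ∃ g : FL L, g ^ p = f

end Fermat.Agent.S48.M
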