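import Fermat.Agent.S48.M.IfDict
import Fermat.Agent.S48.M.IfDesc
import Fermat.Agent.S48.M.IfKL
import Fermat.Agent.S48.M.IfHX
import Fermat.Agent.S29.ESRel

/-!
# S48 / layer M : the wiring (helper6).   Port of S29/Wiring.lean + S29/ESRel.lean.

Generic `L : Lvl`:  `WWL L m = (FL L)ˣ / m`-th powers (additively), Galois action `actWL`, `ThetaL : XL L →+ WWL L m`,
`c ↦ [u_c]`, kernel `m X`, finite level.
Level `lvG M 1`:  Eichler–Shimura relation with diamonds and triviality of inertia on the classes.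
-/

set_option autoImplicit false

open UpperHalfPlane ModularForm ModularFormClass ModularCurve AlgebraicCurve CongruenceSubgroup
open TensorProduct Polynomial
open ModularCurve.Period Fermat.Agent.S24 Fermat.Agent.S29
open scoped MatrixGroups Manifold

noncomputable section

namespace Fermat.Agent.S48.M

/-- existence of Kummer elements -/
def DescL (L : Lvl) (p : ℕ) : Prop :=
  ∀ c : Additive L.Γ →+ ℤ, c ∈ XL L → ∃ u : FL L, IsKummerL L p c u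

section WW

variable (L : Lvl) (p : ℕ)

/-- the subgroup of `p`-th powers -/
def powSubL : Subgroup (FL L)ˣ := (powMonoidHom p : (FL L)ˣ →* (FL L)ˣ).range

/-- `(FL L)ˣ / p`-th powers, additively -/
abbrev WWL : Type := Additive ((FL L)ˣ ⧸ powSubL L p)

variable {L p}

/-- the class of a unit -/
def clsL (u : (FL L)ˣ) : WWL L p := Additive.ofMul (QuotientGroup.mk u)

theorem cls_mulL (u v : (FL L)ˣ) : (clsL (u * v) : WWL L p) = clsL u + clsL v := rfl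

theorem cls_powL (u : (FL L)ˣ) (n : ℕ) : (clsL (u ^ n) : WWL L p) = n • clsL u := rfl

theorem cls_eq_zero_iffL (u : (FL L)ˣ) : (clsL u : WWL L p) = 0 ↔ ∃ r : (FL L)ˣ, r ^ p = u := by
  show (QuotientGroup.mk u : (FL L)ˣ ⧸ powSubL L p) = 1 ↔ _
  rw [QuotientGroup.eq_one_iff]
  rfl

theorem cls_pow_selfL (r : (FL L)ˣ) : (clsL (r ^ p) : WWL L p) = 0 :=
  (cls_eq_zero_iffL _).mpr ⟨r, rfl⟩

theorem cls_surjectiveL (w : WWL L p) : ∃ u, clsL u = w := by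
  obtain ⟨u, hu⟩ := QuotientGroup.mk_surjective (Additive.toMul w)
  exact ⟨u, congrArg Additive.ofMul hu⟩

theorem nsmul_WWL (w : WWL L p) : p • w = 0 := by
  obtain ⟨u, rfl⟩ := cls_surjectiveL w
  rw [← cls_powL, cls_pow_selfL]

theorem gal_mulL (σ τ : GQ) (x : FL L) : galL L (σ * τ) x = galL L σ (galL L τ x) := by
  have h := congrArg (fun g => SemilinearAut.toRingAut g x)
    (map_mul (arithmeticGalois (L := Qb) (L.F₀)) σ τ)
  exact h

theorem gal_oneL (x : FL L) : galL L 1 x = x := by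
  have h := congrArg (fun g => SemilinearAut.toRingAut g x)
    (map_one (arithmeticGalois (L := Qb) (L.F₀)))
  exact h

/-- the Galois action on units -/
def galUL (σ : GQ) : (FL L)ˣ →* (FL L)ˣ := Units.map ((galL L σ : FL L →+* FL L) : FL L →* FL L)

@[simp] theorem coe_galUL (σ : GQ) (u : (FL L)ˣ) : ((galUL σ u : (FL L)ˣ) : FL L) = galL L σ u := rfl

theorem powSubL_le_comap (σ : GQ) : powSubL L p ≤ (powSubL L p).comap (galUL σ) := by
  rintro _ ⟨r, rfl⟩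
  exact ⟨galUL σ r, (map_pow (galUL σ) r p).symm⟩

variable (L p)

/-- the Galois action on classes -/
def actWL : GQ →* AddMonoid.End (WWL L p) where
  toFun σ := MonoidHom.toAdditive (QuotientGroup.map _ _ (galUL σ) (powSubL_le_comap σ))
  map_one' := by
    ext w
    obtain ⟨u, rfl⟩ := cls_surjectiveL w
    show clsL (galUL 1 u) = clsL u
    have : galUL 1 u = u := Units.ext (gal_oneL _)
    rw [this]
  map_mul' σ τ := by
    ext w
    obtain ⟨u, rfl⟩ := cls_surjectiveL w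
    show clsL (galUL (σ * τ) u) = clsL (galUL σ (galUL τ u))
    have : galUL (σ * τ) u = galUL σ (galUL τ u) := Units.ext (gal_mulL _ _ _)
    rw [this]

variable {L p}

theorem actW_clsL (σ : GQ) (u : (FL L)ˣ) : actWL L p σ (clsL u) = clsL (galUL σ u) := rfl

/-- classes of nonzero elements -/
def clL (u : FL L) (hu : u ≠ 0) : WWL L p := clsL (Units.mk0 u hu)

theorem cl_eq_of_eq_mulL (hp : p ≠ 0) {u v r : FL L} (hu : u ≠ 0) (hv : v ≠ 0)
    (h : u = v * r ^ p) : (clL u hu : WWL L p) = clL v hv := by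
  have hr : r ≠ 0 := by
    rintro rfl
    rw [zero_pow hp, mul_zero] at h
    exact hu h
  have : Units.mk0 u hu = Units.mk0 v hv * (Units.mk0 r hr) ^ p := Units.ext h
  rw [clL, this, cls_mulL, cls_pow_selfL]
  exact add_zero (clsL (Units.mk0 v hv) : WWL L p)

theorem cl_mulL {u v : FL L} (hu : u ≠ 0) (hv : v ≠ 0) :
    (clL (u * v) (mul_ne_zero hu hv) : WWL L p) = clL u hu + clL v hv := by
  have : Units.mk0 (u * v) (mul_ne_zero hu hv) = Units.mk0 u hu * Units.mk0 v hv := Units.ext rfl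
  rw [clL, this, cls_mulL]
  rfl

theorem cl_powL {u : FL L} (hu : u ≠ 0) (n : ℕ) :
    (clL (u ^ n) (pow_ne_zero n hu) : WWL L p) = n • clL u hu := by
  have : Units.mk0 (u ^ n) (pow_ne_zero n hu) = Units.mk0 u hu ^ n := Units.ext rfl
  rw [clL, this, cls_powL]
  rfl

theorem actW_clL (σ : GQ) {u : FL L} (hu : u ≠ 0) :
    actWL L p σ (clL u hu) = clL (galL L σ u) ((_root_.map_ne_zero _).mpr hu) := by
  rw [clL, actW_clsL]
  have : galUL σ (Units.mk0 u hu) = Units.mk0 (galL L σ u) ((_root_.map_ne_zero _).mpr hu) := Units.ext rfl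
  rw [this]
  rfl

theorem cl_congrL {u v : FL L} (hu : u ≠ 0) (h : u = v) :
    (clL u hu : WWL L p) = clL v (h ▸ hu) := by
  subst h; rfl

theorem cl_eq_zeroL {u : FL L} (hu : u ≠ 0) (h : (clL u hu : WWL L p) = 0) :
    ∃ r : FL L, u = r ^ p := by
  obtain ⟨r, hr⟩ := (cls_eq_zero_iffL _).mp h
  exact ⟨r, by rw [← Units.val_pow_eq_pow_val, hr]; rfl⟩

end WW

section Theta

variable {L : Lvl} {p : ℕ}

theorem IsKummerL.ne_zero {c : Additive (L.Γ) →+ ℤ} {u : FL L} (h : IsKummerL L p c u) :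
    u ≠ 0 := by
  obtain ⟨h, hh0, hpow, -⟩ := h
  rintro rfl
  rw [map_zero] at hpow
  exact hh0 (eq_zero_of_pow_eq_zero hpow.symm)

/-- a chosen Kummer element -/
def uKL (hD : DescL L p) (c : XL L) : FL L := (hD c c.2).choose

theorem isKummer_uKL (hD : DescL L p) (c : XL L) : IsKummerL L p c (uKL hD c) := (hD c c.2).choose_spec

theorem uK_ne_zeroL (hD : DescL L p) (c : XL L) : uKL hD c ≠ 0 := (isKummer_uKL hD c).ne_zero

/-- `c ↦ [u_c]` -/
def ThetaL (hp : p ≠ 0) (hD : DescL L p) : XL L →+ WWL L p :=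
  AddMonoidHom.mk' (fun c => clL (uKL hD c) (uK_ne_zeroL hD c)) (fun c c' => by
    obtain ⟨r, hr⟩ := isKummerL_unique L p hp _ _ _ (isKummer_uKL hD (c + c'))
      (isKummerL_mul L p _ _ _ _ (isKummer_uKL hD c) (isKummer_uKL hD c'))
    rw [cl_eq_of_eq_mulL hp (uK_ne_zeroL hD (c + c'))
      (mul_ne_zero (uK_ne_zeroL hD c) (uK_ne_zeroL hD c')) hr, cl_mulL])

theorem Theta_applyL (hp : p ≠ 0) (hD : DescL L p) (c : XL L) :
    ThetaL hp hD c = clL (uKL hD c) (uK_ne_zeroL hD c) := rfl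

/-- `Θ c` is the class of any Kummer element of `c` -/
theorem Theta_eqL (hp : p ≠ 0) (hD : DescL L p) (c : XL L) {u : FL L} (hu : IsKummerL L p c u) :
    ThetaL hp hD c = clL u hu.ne_zero := by
  obtain ⟨r, hr⟩ := isKummerL_unique L p hp _ _ _ (isKummer_uKL hD c) hu
  rw [Theta_applyL, cl_eq_of_eq_mulL hp _ hu.ne_zero hr]

theorem exists_div_XNL (hp : p ≠ 0) (c : XL L)
    (h : ∀ γ : L.Γ, (p : ℤ) ∣ (c : Additive (L.Γ) →+ ℤ) (Additive.ofMul γ)) :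
    ∃ c' : XL L, c = p • c' := by
  have hp' : (p : ℤ) ≠ 0 := by exact_mod_cast hp
  let c₀ : Additive (L.Γ) →+ ℤ :=
    { toFun := fun x => (c : Additive (L.Γ) →+ ℤ) x / p
      map_zero' := by simp
      map_add' := fun x y => by
        rw [map_add]
        exact Int.add_ediv_of_dvd_left (h (Additive.toMul x)) }
  have hc₀ : c₀ ∈ XL L := by
    intro γ hγ
    show (c : Additive (L.Γ) →+ ℤ) (Additive.ofMul γ) / p = 0
    rw [c.2 γ hγ, Int.zero_ediv]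
  refine ⟨⟨c₀, hc₀⟩, Subtype.ext (AddMonoidHom.ext fun x => ?_)⟩
  show (c : Additive (L.Γ) →+ ℤ) x = p • ((c : Additive (L.Γ) →+ ℤ) x / p)
  rw [nsmul_eq_mul]
  exact (Int.mul_ediv_cancel' (h (Additive.toMul x))).symm

theorem Theta_kerL (hp : p ≠ 0) (hD : DescL L p) (c : XL L) (h : ThetaL hp hD c = 0) :
    ∃ c' : XL L, c = p • c' := by
  obtain ⟨r, hr⟩ := cl_eq_zeroL _ h
  have h1 := isKummer_uKL hD c
  rw [hr] at h1
  exact exists_div_XNL hp c (dvd_of_isKummerL_pow L p hp _ r h1)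

theorem Theta_levelL (hp : p ≠ 0) (hD : DescL L p) (c : XL L) :
    ∃ E : IntermediateField ℚ Qb, FiniteDimensional ℚ E ∧
      ∀ g : GQ, (∀ x ∈ E, g x = x) → actWL L p g (ThetaL hp hD c) = ThetaL hp hD c := by
  obtain ⟨E, hE, h⟩ := exists_levelL (uKL hD c)
  refine ⟨E, hE, fun g hg => ?_⟩
  rw [Theta_applyL, actW_clL]
  exact cl_congrL _ (h g hg)

end Theta

section ES

variable (M : ℕ) [NeZero M]

/-- Eichler–Shimura on classes -/
theorem es1G (m : ℕ) (ℓ : ℕ) [NeZero ℓ] (hℓ : ℓ.Prime) (hM : ¬ ℓ ∣ M * m) (A : ValuationSubring Qb)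
    (hA : A.LiesOverPrime ℓ) (σ : GQ) (hσ : A.IsFrobeniusAt σ ℓ) (u : FL (lvG M 1))
    (hu : PDiv Kb (FL (lvG M 1)) m u) :
    ∃ r : FL (lvG M 1), TlG M ℓ u =
      galL (lvG M 1) σ (diaG M (unitOf M ℓ)⁻¹ u) * (galL (lvG M 1) σ⁻¹ u) ^ ℓ * r ^ m := by
  have hN : ¬ ℓ ∣ M := fun h => hM (Dvd.dvd.mul_right h m)
  have hm : ¬ ℓ ∣ m := fun h => hM (Dvd.dvd.mul_left h M)
  obtain ⟨c, hc, hcong⟩ := cong_frobG hℓ hN hA hσ u hu.1
  have hf : PDiv Kb (FL (lvG M 1)) m (TlG M ℓ u *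
      (galL (lvG M 1) σ (diaG M (unitOf M ℓ)⁻¹ u))⁻¹ * ((galL (lvG M 1) σ⁻¹ u) ^ ℓ)⁻¹) :=
    ((PDiv.TlG M ℓ hu).mul (PDiv.galL (PDiv.diaG M hu _) σ).inv).mul
      ((PDiv.galL hu σ⁻¹).pow ℓ).inv
  obtain ⟨g, hg⟩ := KL_generalL (KLG M hℓ hN A hA) m hm _ hf c hc hcong
  refine ⟨g, ?_⟩
  have h1 : galL (lvG M 1) σ (diaG M (unitOf M ℓ)⁻¹ u) ≠ 0 := (PDiv.galL (PDiv.diaG M hu _) σ).1
  have h2 : (galL (lvG M 1) σ⁻¹ u) ^ ℓ ≠ 0 := ((PDiv.galL hu σ⁻¹).pow ℓ).1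
  rw [hg]
  field_simp

/-- inertia acts trivially on classes -/
theorem es2G (m : ℕ) (ℓ : ℕ) (hℓ : ℓ.Prime) (hM : ¬ ℓ ∣ M * m) (A : ValuationSubring Qb)
    (hA : A.LiesOverPrime ℓ) (τ : GQ) (hτ : τ ∈ A.inertiaSubgroupIn ℚ) (u : FL (lvG M 1))
    (hu : PDiv Kb (FL (lvG M 1)) m u) :
    ∃ r : FL (lvG M 1), galL (lvG M 1) τ u = u * r ^ m := by
  have hN : ¬ ℓ ∣ M := fun h => hM (Dvd.dvd.mul_right h m)
  have hm : ¬ ℓ ∣ m := fun h => hM (Dvd.dvd.mul_left h M)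
  obtain ⟨c, hc, hcong⟩ := cong_inertiaL hτ u hu.1
  have hf : PDiv Kb (FL (lvG M 1)) m (galL (lvG M 1) τ u * u⁻¹) := (PDiv.galL hu τ).mul hu.inv
  obtain ⟨g, hg⟩ := KL_generalL (KLG M hℓ hN A hA) m hm _ hf c hc hcong
  refine ⟨g, ?_⟩
  have h1 : u ≠ 0 := hu.1
  rw [hg]
  field_simp

variable {M}
variable {p : ℕ}

theorem descG (M p : ℕ) [NeZero M] : DescL (lvG M 1) p := fun c hc => desc_holdsL (lvG M 1) p c hc

/-- `Θ : X → W` at level `±Γ₁(M)` -/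
def ThetaG (M : ℕ) [NeZero M] {p : ℕ} (hp : p ≠ 0) : XL (lvG M 1) →+ WWL (lvG M 1) p :=
  ThetaL hp (descG M p)

theorem ThetaG_ES (hp : p ≠ 0)
    (ℓ : ℕ) (hℓ : ℓ.Prime) (hM : ¬ ℓ ∣ M * p) (A : ValuationSubring Qb) (hA : A.LiesOverPrime ℓ)
    (σ : GQ) (hσ : A.IsFrobeniusAt σ ℓ) (g : GQ) (c : XL (lvG M 1)) :
    actWL (lvG M 1) p g (ThetaG M hp (TX M ℓ c)) =
      actWL (lvG M 1) p σ (actWL (lvG M 1) p g (ThetaG M hp (DX M (unitOf M ℓ)⁻¹ c))) +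
        ℓ • actWL (lvG M 1) p σ⁻¹ (actWL (lvG M 1) p g (ThetaG M hp c)) := by
  have hN : ¬ ℓ ∣ M := fun h => hM (Dvd.dvd.mul_right h p)
  have : NeZero ℓ := ⟨hℓ.ne_zero⟩
  set hD := descG M p
  have hk := isKummerL_TlG M p hℓ hN c (TX M ℓ c) (uKL hD c) c.2 (isKummer_uKL hD c)
    (isTransferL_TX M hℓ hN c)
  have hk2 := isKummerL_diaG M p (unitOf M ℓ)⁻¹ c (DX M (unitOf M ℓ)⁻¹ c) (uKL hD c)
    (isKummer_uKL hD c) (isDiaL_DX M _ c)
  have hu0 := uK_ne_zeroL hD c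
  have hP : PDiv Kb (FL (lvG M 1)) p (galL (lvG M 1) g (uKL hD c)) :=
    PDiv.galL (pdiv_of_isKummerL (lvG M 1) p c c.2 _ (isKummer_uKL hD c)) g
  obtain ⟨r, hr⟩ := es1G M p ℓ hℓ hM A hA σ hσ _ hP
  rw [ThetaG, Theta_eqL hp hD _ hk, Theta_eqL hp hD _ hk2, Theta_applyL, actW_clL, actW_clL,
    actW_clL, actW_clL, actW_clL, ← cl_powL, ← cl_mulL]
  rw [cl_congrL _ (galL_TlG M ℓ g (uKL hD c))]
  refine cl_eq_of_eq_mulL hp _ _ (r := r) ?_
  rw [hr, galL_diaG M _ g]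

theorem ThetaG_inertia (hp : p ≠ 0)
    (ℓ : ℕ) (hℓ : ℓ.Prime) (hM : ¬ ℓ ∣ M * p) (A : ValuationSubring Qb) (hA : A.LiesOverPrime ℓ)
    (τ : GQ) (hτ : τ ∈ A.inertiaSubgroupIn ℚ) (g : GQ) (c : XL (lvG M 1)) :
    actWL (lvG M 1) p τ (actWL (lvG M 1) p g (ThetaG M hp c)) =
      actWL (lvG M 1) p g (ThetaG M hp c) := by
  set hD := descG M p
  have hP : PDiv Kb (FL (lvG M 1)) p (galL (lvG M 1) g (uKL hD c)) :=
    PDiv.galL (pdiv_of_isKummerL (lvG M 1) p c c.2 _ (isKummer_uKL hD c)) g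
  obtain ⟨r, hr⟩ := es2G M p ℓ hℓ hM A hA τ hτ _ hP
  rw [ThetaG, Theta_applyL, actW_clL, actW_clL]
  exact cl_eq_of_eq_mulL hp _ _ hr

end ES

end Fermat.Agent.S48.M
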