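import Fermat.Agent.S48.M.IfPer
import Fermat.Agent.S48.M.Wiring
import Fermat.Agent.S48.M.Abs.GL2

/-!
# S48 / layer M : the TOP : `exists_residual` = `abs_main` (helper11) + `Wiring.lean` (helper6) + the eigenvector of PER (helper16)   (helper9)
-/

set_option autoImplicit false

open UpperHalfPlane TensorProduct Fermat.Agent.S24 Fermat.Agent.S29

noncomputable section

namespace Fermat.Agent.S48.M

theorem coe_unitOf (M : ℕ) [NeZero M] (p : ℕ) (hp : Nat.Coprime p M) :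
    ((unitOf M p : (ZMod M)ˣ) : ZMod M) = (p : ZMod M) := by
  rw [unitOf, dif_pos hp]; rfl

theorem exists_residual_top (M : ℕ) [NeZero M] (ℓ : ℕ) (hℓ : ℓ.Prime) {k : Type} [Field k]
    [IsAlgClosed k] [CharP k ℓ] (φ : Zbar →+* k) (χ : ℤ → ℂ) (g : ℍ → ℂ)
    (hg : IsNebC M 2 χ g)
    (c : ℕ → Zbar) (hc : ∀ n, (c n : ℂ) = coeffFun g n) (h1 : φ (c 1) ≠ 0)
    (x : ℤ → Zbar) (hx : ∀ d, (x d : ℂ) = χ d) (b : ℕ → k)
    (hb : ∀ p : ℕ, p.Prime → ¬ p ∣ M → ∀ n : ℕ,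
      φ (c (p * n)) + φ (x p) * (p : k) * (if p ∣ n then φ (c (n / p)) else 0) = b p * φ (c n)) :
    ∃ r : GQ →* GL (Fin 2) k, GaloisFactorsThroughFiniteLevel r ∧
      ∀ p : ℕ, p.Prime → ¬ p ∣ M * ℓ → ∀ A : ValuationSubring Qb, A.LiesOverPrime p →
        (∀ σ ∈ A.inertiaSubgroupIn ℚ, r σ = 1) ∧
        ∀ σ : GQ, A.IsFrobeniusAt σ p →
          (r σ : Matrix (Fin 2) (Fin 2) k).trace = b p ∧
          (r σ : Matrix (Fin 2) (Fin 2) k).det = φ (x p) * (p : k) := by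
  obtain ⟨ε, y, hε, hy0, hyT, hyD⟩ := exists_eigenvector_if M φ χ g hg c hc h1 x hx b hb (TX M)
    (fun p hp hM u => isTransferL_TX M hp hM u) (DX M) (fun d u => isDiaL_DX M d u)
  have hℓ0 : ℓ ≠ 0 := hℓ.ne_zero
  have hnM : ∀ p : ℕ, ¬ p ∣ M * ℓ → ¬ p ∣ M := fun p h h' => h (Dvd.dvd.mul_right h' ℓ)
  have hcop : ∀ p : ℕ, p.Prime → ¬ p ∣ M * ℓ → Nat.Coprime p M := fun p hp hM =>
    (Nat.Prime.coprime_iff_not_dvd hp).mpr (hnM p hM)
  obtain ⟨r, hfin, hr⟩ := abs_main hℓ (WWL (lvG M 1) ℓ) nsmul_WWL (actWL (lvG M 1) ℓ)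
    (XL (lvG M 1)) (ThetaG M hℓ0) (Theta_kerL hℓ0 (descG M ℓ)) (Theta_levelL hℓ0 (descG M ℓ))
    M ε (TX M) (fun p => DX M (unitOf M p)⁻¹) b y hy0
    (fun p hp hM u hu => hyT p hp (hnM p hM) u hu)
    (fun p hp hM u hu => by
      have e : unitOf M p = u := Units.ext ((coe_unitOf M p (hcop p hp hM)).trans hu.symm)
      rw [hyD, e, map_inv])
    (fun p hp hM A hA σ hσ g c => ThetaG_ES hℓ0 p hp hM A hA σ hσ g c)
    (fun p hp hM A hA τ hτ g c => ThetaG_inertia hℓ0 p hp hM A hA τ hτ g c)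
  refine ⟨r, hfin, fun p hp hM A hA => ⟨(hr p hp hM A hA).1, fun σ hσ => ?_⟩⟩
  have h2 := (hr p hp hM A hA).2 σ hσ (unitOf M p) (coe_unitOf M p (hcop p hp hM))
  rw [hε (p : ℤ) (unitOf M p) (by rw [coe_unitOf M p (hcop p hp hM)]; simp)] at h2
  exact h2

end Fermat.Agent.S48.M
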